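import Fermat.Agent.H22.ES.KLSetting
import Fermat.Agent.H3.KLKumBasic

/-!
# P-ES / KL-KUM : dictionary between the chart language and the abstract language (helper54)

`Fermat.Agent.H22.ES.KLSetting` states the Kummer layer in the *chart language*
(`chartRing A E x = A[x] ⊆ E`, `chartClosure`, `chartField`, `gaussClosure`, `GoodBasis`,
`PiDvd`, `PiDvdSet`), while helper3 / helper91 prove the abstract theorems for an integrally
closed domain `R` with fraction field `K` acting on `E`
(`IsIntegral R`, `LocInt`, `LocDvd`, `HasGoodBasisAt`).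

This file is the dictionary.  The link is the predicate `IsChart A R x ϖ ϖ'`:
the structure map `R → E` is injective with image `A[x]`, and `ϖ' ↦ ϖ`.

* `IsChart.mem_chartClosure_iff` : `y ∈ B(x) ↔ IsIntegral R y`;
* `IsChart.piDvd_algebraMap_iff` : `ϖ ∣ c` in `A[x]` iff `ϖ' ∣ c` in `R`;
* `IsChart.mem_gaussClosure_iff` : `y ∈ C(x) ↔ LocInt ϖ' y`;
* `IsChart.piDvdSet_gaussClosure_iff` : `y ∈ ϖ C(x) ↔ LocDvd ϖ' y`;
* `IsChart.chartField_eq`, `IsChart.fieldEquiv` : `K ≃ K₀(x)`;
* `IsChart.finiteDimensional_of_goodBasis`, `IsChart.hasGoodBasisAt_of_goodBasis`,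
  `IsChart.goodBasis_of_hasGoodBasisAt` : `GoodBasis A E ϖ x ↔ HasGoodBasisAt R K E (ϖ')`;
* `locInt_inv_of_locDvd_sub_one` : `u ≡ 1 mod ϖ'` is a unit of the localised integral closure;
* `kummer_not_pow` : `E = E₀(w)`, `w ^ r = u`, `[E : E₀] = r` prime imply that `u` is not an
  `r`-th power in `E₀`;
* `polyChart`, `polyChart_map` : the standard chart `R = A[X]`, `X ↦ x`.
-/

set_option autoImplicit false
set_option linter.style.haveILetI false

noncomputable section

namespace Fermat.Agent.H54.KLDict

open Polynomial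
open Fermat.Agent.H22.KL
open Fermat.Agent.H67.KLConn (PiDvd)
open Fermat.Agent.H3.KLKum (LocInt LocDvd)
open Fermat.Agent.H91 (HasGoodBasisAt)

/-! ## Mathlib-only preliminaries -/

/-- integrality only depends on the image of the base ring -/
theorem isIntegral_of_algebraMap_range_le {R S E : Type*} [CommRing R] [CommRing S] [CommRing E]
    [Algebra R E] [Algebra S E] (h : ∀ s : S, algebraMap S E s ∈ (algebraMap R E).range)
    {y : E} (hy : IsIntegral S y) : IsIntegral R y := by
  obtain ⟨p, hp, hpy⟩ := hy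
  have hl : p.map (algebraMap S E) ∈ Polynomial.lifts (algebraMap R E) := by
    rw [Polynomial.lifts_iff_coeff_lifts]
    intro n
    rw [Polynomial.coeff_map]
    exact h _
  obtain ⟨q, hq, -, hqm⟩ := Polynomial.lifts_and_natDegree_eq_and_monic hl (hp.map _)
  refine ⟨q, hqm, ?_⟩
  rw [← Polynomial.eval_map, hq, Polynomial.eval_map]
  exact hpy

/-- `u ≡ 1` modulo `h` (in the localised integral closure) has a localised-integral inverse. -/
theorem locInt_inv_of_locDvd_sub_one {R E : Type*} [CommRing R] [Field E] [Algebra R E] {h : R}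
    (hh : Prime h) {u : E} (hu : LocDvd h (u - 1)) : LocInt h u⁻¹ := by
  obtain ⟨s, c, hs, hc, hsc⟩ := hu
  obtain ⟨p, hp, hpc⟩ := hc
  have hpc' : aeval c p = 0 := by rw [aeval_def]; exact hpc
  set q : R[X] := (scaleRoots p h).comp (X - C s) with hq
  set v : E := algebraMap R E s * u with hv
  have hv' : v = algebraMap R E s + algebraMap R E h * c := by
    have := hsc
    rw [Algebra.smul_def, Algebra.smul_def] at this
    rw [hv]
    linear_combination this
  have hvint : IsIntegral R v := by
    rw [hv']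
    exact isIntegral_algebraMap.add (isIntegral_algebraMap.mul ⟨p, hp, hpc⟩)
  have hqv : aeval v q = 0 := by
    rw [hq, aeval_comp]
    simp only [map_sub, aeval_X, aeval_C]
    rw [hv', add_sub_cancel_left]
    exact scaleRoots_aeval_eq_zero hpc'
  -- the constant term of `q` is `≡ (-s) ^ d` modulo `h`
  have hq0 : q.coeff 0 = (scaleRoots p h).eval (-s) := by
    rw [Polynomial.coeff_zero_eq_eval_zero, hq, eval_comp]
    simp
  have hnd : ¬ h ∣ q.coeff 0 := by
    rw [hq0, Polynomial.eval_eq_sum_range, natDegree_scaleRoots, Finset.sum_range_succ]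
    intro hdvd
    have h1 : h ∣ ∑ i ∈ Finset.range p.natDegree, (scaleRoots p h).coeff i * (-s) ^ i := by
      refine Finset.dvd_sum fun i hi => ?_
      rw [coeff_scaleRoots]
      have hi' : i < p.natDegree := Finset.mem_range.mp hi
      have : h ∣ h ^ (p.natDegree - i) := dvd_pow_self h (by omega)
      exact Dvd.dvd.mul_right (Dvd.dvd.mul_left this _) _
    have h2 : h ∣ (scaleRoots p h).coeff p.natDegree * (-s) ^ p.natDegree :=
      (dvd_add_right h1).mp hdvd
    rw [coeff_scaleRoots_natDegree, hp.leadingCoeff, one_mul] at h2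
    exact hs ((dvd_neg).mp (hh.dvd_of_dvd_pow h2))
  refine ⟨q.coeff 0, hnd, ?_⟩
  -- `q = divX q * X + C (q.coeff 0)`
  have hdec : aeval v (divX q) * v + algebraMap R E (q.coeff 0) = 0 := by
    have := congrArg (aeval v) (divX_mul_X_add q)
    rw [hqv] at this
    simpa using this
  by_cases hu0 : u = 0
  · rw [hu0, inv_zero, smul_zero]
    exact isIntegral_zero
  · have hmain : (q.coeff 0) • u⁻¹ = -(aeval v (divX q) * algebraMap R E s) := by
      rw [Algebra.smul_def]
      have h3 : algebraMap R E (q.coeff 0) = -(aeval v (divX q) * v) := by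
        linear_combination hdec
      rw [h3, hv]
      field_simp
    rw [hmain]
    refine IsIntegral.neg (IsIntegral.mul ?_ isIntegral_algebraMap)
    have hle : Algebra.adjoin R {v} ≤ integralClosure R E :=
      Algebra.adjoin_le (by
        intro z hz
        rw [Set.mem_singleton_iff] at hz
        rw [hz]
        exact hvint)
    exact hle (aeval_mem_adjoin_singleton R v)

/-- If `E = E₀(w)` has prime degree `r` over `E₀` and `w ^ r = u ∈ E₀`, then `u` is not an
`r`-th power in `E₀`. -/
theorem kummer_not_pow {E₀ E : Type*} [Field E₀] [Field E] [Algebra E₀ E] {r : ℕ}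
    (hr : r.Prime) {u : E₀} {w : E} (hw : w ^ r = algebraMap E₀ E u)
    (hadj : Algebra.adjoin E₀ ({w} : Set E) = ⊤) (hdeg : Module.finrank E₀ E = r) :
    ∀ v : E₀, v ^ r ≠ u := by
  intro v hv
  have hr2 : 2 ≤ r := hr.two_le
  haveI : FiniteDimensional E₀ E := Module.finite_of_finrank_pos (by omega)
  have hwint : IsIntegral E₀ w := IsIntegral.of_finite E₀ w
  have htop : IntermediateField.adjoin E₀ ({w} : Set E) = ⊤ := by
    apply IntermediateField.toSubalgebra_injective
    rw [IntermediateField.adjoin_simple_toSubalgebra_of_isAlgebraic hwint.isAlgebraic, hadj]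
    rfl
  have hnat : (minpoly E₀ w).natDegree = r := by
    rw [(Field.primitive_element_iff_minpoly_natDegree_eq E₀ w).mp htop, hdeg]
  -- `X ^ r - C u = (X - C v) * g`
  have hroot : (X ^ r - C u : E₀[X]).IsRoot v := by
    simp [hv]
  obtain ⟨g, hg⟩ := dvd_iff_isRoot.mpr hroot
  have hne : (X ^ r - C u : E₀[X]) ≠ 0 := X_pow_sub_C_ne_zero (by omega) u
  have hg0 : g ≠ 0 := by
    rintro rfl
    rw [mul_zero] at hg
    exact hne hg
  have hgdeg : g.natDegree + 1 = r := by
    have := congrArg natDegree hg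
    rw [natDegree_X_pow_sub_C, natDegree_mul (X_sub_C_ne_zero v) hg0, natDegree_X_sub_C] at this
    omega
  have hev : (w - algebraMap E₀ E v) * aeval w g = 0 := by
    have := congrArg (aeval w) hg
    simp only [map_sub, map_pow, aeval_X, aeval_C, map_mul] at this
    rw [← this, hw, sub_self]
  rcases mul_eq_zero.mp hev with h1 | h1
  · have hwv : w = algebraMap E₀ E v := sub_eq_zero.mp h1
    have : (minpoly E₀ w).natDegree = 1 := by
      rw [hwv, minpoly.eq_X_sub_C, natDegree_X_sub_C]
    omega
  · have := natDegree_le_of_dvd (minpoly.dvd E₀ w h1) hg0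
    omega

/-! ## Charts -/

section Chart

/-- `R → E` is a chart for `A[x]`: injective with image `A[x]`, and `ϖ' ↦ ϖ`. -/
structure IsChart (A : Type) [CommRing A] {E : Type} [Field E] [Algebra A E]
    (R : Type*) [CommRing R] [Algebra R E] (x : E) (ϖ : A) (ϖ' : R) : Prop where
  range_eq : ∀ z : E, z ∈ chartRing A E x ↔ z ∈ (algebraMap R E).range
  map_pi : algebraMap R E ϖ' = algebraMap A E ϖ
  injective : Function.Injective (algebraMap R E)

variable {A : Type} [CommRing A] {E : Type} [Field E] [Algebra A E]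
variable {R : Type*} [CommRing R] [Algebra R E]
variable {x : E} {ϖ : A} {ϖ' : R}

theorem IsChart.algebraMap_mem (hc : IsChart A R x ϖ ϖ') (s : R) :
    algebraMap R E s ∈ chartRing A E x :=
  (hc.range_eq _).mpr ⟨s, rfl⟩

theorem IsChart.exists_of_mem (hc : IsChart A R x ϖ ϖ') {z : E} (hz : z ∈ chartRing A E x) :
    ∃ s : R, algebraMap R E s = z :=
  (hc.range_eq _).mp hz

/-- (D1) `B(x)` is the integral closure of `R` in `E`. -/
theorem IsChart.mem_chartClosure_iff (hc : IsChart A R x ϖ ϖ') {y : E} :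
    y ∈ chartClosure A E x ↔ IsIntegral R y := by
  have h1 : y ∈ chartClosure A E x ↔ IsIntegral (chartRing A E x) y := Iff.rfl
  rw [h1]
  constructor
  · intro hy
    exact isIntegral_of_algebraMap_range_le (fun s => hc.exists_of_mem s.2) hy
  · intro hy
    refine isIntegral_of_algebraMap_range_le (fun s => ?_) hy
    exact ⟨⟨_, hc.algebraMap_mem s⟩, rfl⟩

/-- (D4) divisibility by `ϖ` in `A[x]` is divisibility by `ϖ'` in `R`. -/
theorem IsChart.piDvd_algebraMap_iff (hc : IsChart A R x ϖ ϖ') {c : R} :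
    PiDvd ϖ (chartRing A E x) 1 (algebraMap R E c) ↔ ϖ' ∣ c := by
  constructor
  · rintro ⟨z, hz, hcz⟩
    obtain ⟨c', rfl⟩ := hc.exists_of_mem hz
    refine ⟨c', hc.injective ?_⟩
    rw [hcz, pow_one, Algebra.smul_def, map_mul, hc.map_pi]
  · rintro ⟨c', rfl⟩
    refine ⟨algebraMap R E c', hc.algebraMap_mem c', ?_⟩
    rw [pow_one, Algebra.smul_def, map_mul, hc.map_pi]

/-- (D5) the Gauss closure `C(x)` is the localised integral closure. -/
theorem IsChart.mem_gaussClosure_iff (hc : IsChart A R x ϖ ϖ') {y : E} :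
    y ∈ gaussClosure A E ϖ x ↔ LocInt ϖ' y := by
  constructor
  · rintro ⟨h, hh, hnd, hy⟩
    obtain ⟨s, rfl⟩ := hc.exists_of_mem hh
    refine ⟨s, fun hd => hnd (hc.piDvd_algebraMap_iff.mpr hd), ?_⟩
    rw [Algebra.smul_def]
    exact hc.mem_chartClosure_iff.mp hy
  · rintro ⟨s, hs, hy⟩
    refine ⟨algebraMap R E s, hc.algebraMap_mem s,
      fun hd => hs (hc.piDvd_algebraMap_iff.mp hd), ?_⟩
    rw [Algebra.smul_def] at hy
    exact hc.mem_chartClosure_iff.mpr hy

/-- (D5') `ϖ C(x)` is `ϖ'` times the localised integral closure. -/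
theorem IsChart.piDvdSet_gaussClosure_iff (hc : IsChart A R x ϖ ϖ') {y : E} :
    PiDvdSet A E ϖ (gaussClosure A E ϖ x) y ↔ LocDvd ϖ' y := by
  constructor
  · rintro ⟨c, hcg, rfl⟩
    obtain ⟨s, hs, hsc⟩ := hc.mem_gaussClosure_iff.mp hcg
    refine ⟨s, s • c, hs, hsc, ?_⟩
    rw [Algebra.smul_def, Algebra.smul_def, Algebra.smul_def, hc.map_pi]
    ring
  · rintro ⟨s, c, hs, hcint, hsc⟩
    have hs0 : algebraMap R E s ≠ 0 := by
      intro h0
      apply hs
      have : s = 0 := hc.injective (by rw [h0, map_zero])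
      rw [this]
      exact dvd_zero _
    refine ⟨(algebraMap R E s)⁻¹ * c, ?_, ?_⟩
    · refine hc.mem_gaussClosure_iff.mpr ⟨s, hs, ?_⟩
      rw [Algebra.smul_def, mul_inv_cancel_left₀ hs0]
      exact hcint
    · rw [Algebra.smul_def, Algebra.smul_def, hc.map_pi] at hsc
      field_simp
      linear_combination hsc

/-! ### The fraction field -/

variable {K : Type*} [Field K] [Algebra R K] [IsFractionRing R K] [Algebra K E]
  [IsScalarTower R K E]

/-- (D2) `K₀(x)` is the image of `K = Frac R`. -/
theorem IsChart.chartField_eq (hc : IsChart A R x ϖ ϖ') (K : Type*) [Field K] [Algebra R K]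
    [IsFractionRing R K] [Algebra K E] [IsScalarTower R K E] :
    chartField A E x = (algebraMap K E).fieldRange := by
  apply le_antisymm
  · refine Subfield.closure_le.mpr fun z hz => ?_
    obtain ⟨s, rfl⟩ := hc.exists_of_mem hz
    exact ⟨algebraMap R K s, (IsScalarTower.algebraMap_apply R K E s).symm⟩
  · rintro z ⟨k, rfl⟩
    obtain ⟨a, b, -, rfl⟩ := IsFractionRing.div_surjective (A := R) k
    rw [map_div₀, ← IsScalarTower.algebraMap_apply, ← IsScalarTower.algebraMap_apply]
    exact div_mem (Subfield.subset_closure (hc.algebraMap_mem a))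
      (Subfield.subset_closure (hc.algebraMap_mem b))

theorem IsChart.algebraMap_mem_chartField (hc : IsChart A R x ϖ ϖ') (k : K) :
    algebraMap K E k ∈ chartField A E x := by
  rw [hc.chartField_eq K]
  exact ⟨k, rfl⟩

/-- (D2) the isomorphism `K ≃ K₀(x)`. -/
def IsChart.fieldEquiv (hc : IsChart A R x ϖ ϖ') (K : Type*) [Field K] [Algebra R K]
    [IsFractionRing R K] [Algebra K E] [IsScalarTower R K E] : K ≃+* chartField A E x :=
  RingEquiv.ofBijective
    ((algebraMap K E).codRestrict (chartField A E x) (fun k => hc.algebraMap_mem_chartField k))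
    ⟨fun a b hab => (algebraMap K E).injective (congrArg Subtype.val hab), fun z => by
      have hz : (z : E) ∈ (algebraMap K E).fieldRange := by
        rw [← hc.chartField_eq K]
        exact z.2
      obtain ⟨k, hk⟩ := hz
      exact ⟨k, Subtype.ext hk⟩⟩

@[simp]
theorem IsChart.coe_fieldEquiv (hc : IsChart A R x ϖ ϖ') (k : K) :
    ((hc.fieldEquiv K k : chartField A E x) : E) = algebraMap K E k := rfl

theorem IsChart.algebraMap_fieldEquiv_symm (hc : IsChart A R x ϖ ϖ')
    (c : chartField A E x) : algebraMap K E ((hc.fieldEquiv K).symm c) = (c : E) := by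
  rw [← hc.coe_fieldEquiv, RingEquiv.apply_symm_apply]

theorem IsChart.fieldEquiv_symm_smul (hc : IsChart A R x ϖ ϖ')
    (c : chartField A E x) (y : E) : (hc.fieldEquiv K).symm c • y = c • y := by
  rw [Algebra.smul_def, hc.algebraMap_fieldEquiv_symm, Subfield.smul_def, smul_eq_mul]

theorem IsChart.fieldEquiv_smul (hc : IsChart A R x ϖ ϖ')
    (k : K) (y : E) : hc.fieldEquiv K k • y = k • y := by
  rw [Subfield.smul_def, smul_eq_mul, hc.coe_fieldEquiv, Algebra.smul_def]

theorem IsChart.trace_eq (hc : IsChart A R x ϖ ϖ') (y : E) :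
    (hc.fieldEquiv K).symm (Algebra.trace (chartField A E x) E y) = Algebra.trace K E y := by
  refine Algebra.trace_eq_of_ringEquiv (hc.fieldEquiv K).symm ?_ y
  ext c
  exact hc.algebraMap_fieldEquiv_symm c

/-- (D3, key computation) the discriminant over `K₀(x)` is the image of the Gram determinant. -/
theorem IsChart.coe_discr_eq (hc : IsChart A R x ϖ ϖ') {n : ℕ} (b : Fin n → E)
    (G : Matrix (Fin n) (Fin n) R)
    (hG : ∀ i j, algebraMap R K (G i j) = Algebra.trace K E (b i * b j)) :
    ((Algebra.discr (chartField A E x) b : chartField A E x) : E) = algebraMap R E G.det := by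
  have h1 : (hc.fieldEquiv K).symm (Algebra.discr (chartField A E x) b)
      = algebraMap R K G.det := by
    rw [Algebra.discr_def, RingHom.map_det, ← RingEquiv.coe_toRingHom, RingHom.map_det]
    congr 1
    ext i j
    simp only [RingHom.mapMatrix_apply, Matrix.map_apply, Algebra.traceMatrix_apply,
      Algebra.traceForm_apply, RingEquiv.coe_toRingHom]
    rw [hc.trace_eq, hG]
  rw [IsScalarTower.algebraMap_apply R K E, ← h1, hc.algebraMap_fieldEquiv_symm]

/-! ### Good bases -/

/-- a good basis makes `E` finite over `K`. -/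
theorem IsChart.finiteDimensional_of_goodBasis (hc : IsChart A R x ϖ ϖ') (K : Type*) [Field K]
    [Algebra R K] [IsFractionRing R K] [Algebra K E] [IsScalarTower R K E]
    (h : GoodBasis A E ϖ x) : FiniteDimensional K E := by
  obtain ⟨n, b, -, -⟩ := h
  exact Module.Finite.of_basis (b.mapCoeffs (hc.fieldEquiv K).symm hc.fieldEquiv_symm_smul)

/-- (D3) a good basis in the chart language is a good basis in the abstract language. -/
theorem IsChart.hasGoodBasisAt_of_goodBasis [IsDomain R] [IsIntegrallyClosed R]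
    [FiniteDimensional K E] (hc : IsChart A R x ϖ ϖ') (h : GoodBasis A E ϖ x) :
    HasGoodBasisAt R K E (Ideal.span {ϖ'}) := by
  obtain ⟨n, b, hb, hd⟩ := h
  have hint : ∀ i, IsIntegral R (b i) := fun i => hc.mem_chartClosure_iff.mp (hb i)
  have htr : ∀ i j, ∃ g : R, algebraMap R K g = Algebra.trace K E (b i * b j) := fun i j =>
    IsIntegrallyClosed.isIntegral_iff.mp (Algebra.isIntegral_trace ((hint i).mul (hint j)))
  choose G hG using htr
  refine ⟨n, fun i => b i, Matrix.of G, ?_, hint, hG, ?_⟩
  · rw [Module.finrank_eq_card_basis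
      (b.mapCoeffs (hc.fieldEquiv K).symm hc.fieldEquiv_symm_smul), Fintype.card_fin]
  · intro hdet
    apply hd
    obtain ⟨c, hcd⟩ := Ideal.mem_span_singleton.mp hdet
    rw [hc.coe_discr_eq (K := K) (fun i => b i) (Matrix.of G) hG]
    exact hc.piDvd_algebraMap_iff.mpr ⟨c, hcd⟩

/-- (D3) a good basis in the abstract language is a good basis in the chart language. -/
theorem IsChart.goodBasis_of_hasGoodBasisAt [IsDomain R] [IsIntegrallyClosed R]
    [FiniteDimensional K E] (hc : IsChart A R x ϖ ϖ')
    (h : HasGoodBasisAt R K E (Ideal.span {ϖ'})) : GoodBasis A E ϖ x := by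
  obtain ⟨n, b, G, hn, hint, hG, hd⟩ := h
  have hd0 : G.det ≠ 0 := fun h0 => hd (h0 ▸ Ideal.zero_mem _)
  have hli : LinearIndependent K b := Fermat.Agent.H91.linearIndependent_of_det_ne_zero hG hd0
  have hnpos : 0 < n := by
    rw [← hn]
    exact Module.finrank_pos
  haveI : Nonempty (Fin n) := ⟨⟨0, hnpos⟩⟩
  let bK : Module.Basis (Fin n) K E :=
    basisOfLinearIndependentOfCardEqFinrank hli (by rw [Fintype.card_fin, hn])
  have hbK : ∀ i, bK i = b i := fun i => by
    simp only [bK, coe_basisOfLinearIndependentOfCardEqFinrank]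
  let b' : Module.Basis (Fin n) (chartField A E x) E :=
    bK.mapCoeffs (hc.fieldEquiv K) hc.fieldEquiv_smul
  have hb' : ∀ i, b' i = b i := fun i => by
    simp only [b', Module.Basis.mapCoeffs_apply, hbK]
  have hfun : (fun i => b' i) = b := funext hb'
  refine ⟨n, b', fun i => ?_, ?_⟩
  · rw [hb']
    exact hc.mem_chartClosure_iff.mpr (hint i)
  · rw [hfun, hc.coe_discr_eq (K := K) b G hG]
    intro hpd
    exact hd (Ideal.mem_span_singleton.mpr (hc.piDvd_algebraMap_iff.mp hpd))

end Chart

/-! ## The polynomial chart `R = A[X]`, `X ↦ x` -/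

section PolyChart

/-- the chart algebra structure `A[X] → E`, `X ↦ x`. -/
@[reducible] def polyAlgebra (A : Type) [CommRing A] (E : Type) [Field E] [Algebra A E]
    (x : E) : Algebra A[X] E := (aeval x).toRingHom.toAlgebra

theorem polyAlgebra_algebraMap_apply (A : Type) [CommRing A] (E : Type) [Field E] [Algebra A E]
    (x : E) (p : A[X]) :
    letI := polyAlgebra A E x
    algebraMap A[X] E p = aeval x p := rfl

/-- the polynomial chart is a chart. -/
theorem isChart_poly {A : Type} [CommRing A] {E : Type} [Field E] [Algebra A E]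
    (x : E) (hx : Transcendental A x) (ϖ : A) :
    letI := polyAlgebra A E x
    IsChart A A[X] x ϖ (C ϖ) := by
  letI := polyAlgebra A E x
  refine ⟨fun z => ?_, ?_, ?_⟩
  · rw [chartRing, Algebra.adjoin_singleton_eq_range_aeval]
    constructor
    · rintro ⟨p, rfl⟩
      exact ⟨p, rfl⟩
    · rintro ⟨p, rfl⟩
      exact ⟨p, rfl⟩
  · exact aeval_C x ϖ
  · exact transcendental_iff_injective.mp hx

end PolyChart

/-! ## The adapter for KL-K-1 -/

/-- helper3's abstract Kummer good-basis theorem
(`Fermat.Agent.H3.KLKum.kummer_hasGoodBasisAt`), as a proposition in `Type`. -/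
def KummerAbstractStatement : Prop :=
  ∀ (R : Type) [CommRing R] [IsDomain R] [IsIntegrallyClosed R]
    (K : Type) [Field K] [Algebra R K] [IsFractionRing R K]
    (E₀ : Type) [Field E₀] [Algebra K E₀] [Algebra R E₀] [IsScalarTower R K E₀]
    [FiniteDimensional K E₀]
    (E : Type) [Field E] [Algebra K E] [Algebra R E] [IsScalarTower R K E]
    [FiniteDimensional K E] [Algebra E₀ E] [IsScalarTower K E₀ E] [IsScalarTower R E₀ E]
    (h : R), Prime h → ∀ (r : ℕ), r.Prime → ¬ h ∣ (r : R) →
    ∀ (u : E₀) (w : E), w ^ r = algebraMap E₀ E u → Module.finrank E₀ E = r →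
      (∀ v : E₀, v ^ r ≠ u) → LocInt h u → LocInt h u⁻¹ →
      HasGoodBasisAt R K E₀ (Ideal.span {h}) → HasGoodBasisAt R K E (Ideal.span {h})

/-- **KL-K-1, adapter**: the abstract Kummer good-basis theorem implies
`KummerGoodBasisStatement`. -/
theorem kummerGoodBasis_of_abstract (habs : KummerAbstractStatement) :
    KummerGoodBasisStatement := by
  intro A _ _ _ E₀ E _ _ _ _ _ _ _ hinj ϖ hϖ x hx r hr hru u w hw hadj hdeg hu hu1 hgb
  have hx' : Transcendental A (algebraMap E₀ E x) :=
    (transcendental_algebraMap_iff (algebraMap E₀ E).injective).mpr hx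
  letI iR₀ : Algebra A[X] E₀ := polyAlgebra A E₀ x
  letI iR : Algebra A[X] E := polyAlgebra A E (algebraMap E₀ E x)
  have hc₀ : IsChart A A[X] x ϖ (C ϖ) := isChart_poly x hx ϖ
  have hc : IsChart A A[X] (algebraMap E₀ E x) ϖ (C ϖ) := isChart_poly _ hx' ϖ
  haveI : FaithfulSMul A[X] E₀ := (faithfulSMul_iff_algebraMap_injective _ _).mpr hc₀.injective
  haveI : FaithfulSMul A[X] E := (faithfulSMul_iff_algebraMap_injective _ _).mpr hc.injective
  letI iK₀ : Algebra (FractionRing A[X]) E₀ := FractionRing.liftAlgebra A[X] E₀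
  letI iK : Algebra (FractionRing A[X]) E := FractionRing.liftAlgebra A[X] E
  haveI : IsScalarTower A[X] (FractionRing A[X]) E₀ :=
    FractionRing.isScalarTower_liftAlgebra A[X] E₀
  haveI : IsScalarTower A[X] (FractionRing A[X]) E :=
    FractionRing.isScalarTower_liftAlgebra A[X] E
  haveI : IsScalarTower A[X] E₀ E :=
    IsScalarTower.of_algebraMap_eq (fun p => aeval_algebraMap_apply E x p)
  haveI : IsScalarTower (FractionRing A[X]) E₀ E := by
    refine IsScalarTower.of_algebraMap_eq' ?_
    refine IsLocalization.ringHom_ext (nonZeroDivisors A[X]) ?_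
    ext p
    · simp only [RingHom.comp_apply]
      rw [← IsScalarTower.algebraMap_apply A[X] (FractionRing A[X]) E,
        ← IsScalarTower.algebraMap_apply A[X] (FractionRing A[X]) E₀,
        ← IsScalarTower.algebraMap_apply A[X] E₀ E]
    · simp only [RingHom.comp_apply]
      rw [← IsScalarTower.algebraMap_apply A[X] (FractionRing A[X]) E,
        ← IsScalarTower.algebraMap_apply A[X] (FractionRing A[X]) E₀,
        ← IsScalarTower.algebraMap_apply A[X] E₀ E]
  haveI : FiniteDimensional (FractionRing A[X]) E₀ :=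
    hc₀.finiteDimensional_of_goodBasis _ hgb
  haveI : FiniteDimensional E₀ E := Module.finite_of_finrank_pos (by rw [hdeg]; exact hr.pos)
  haveI : FiniteDimensional (FractionRing A[X]) E := FiniteDimensional.trans _ E₀ E
  have hprime : Prime (C ϖ : A[X]) := Polynomial.prime_C_iff.mpr hϖ.prime
  have hrh : ¬ (C ϖ : A[X]) ∣ ((r : ℕ) : A[X]) := by
    intro hd
    have hunit : IsUnit (((r : ℕ) : A[X])) := by
      have := hru.map (C : A →+* A[X])
      simpa using this
    exact hprime.not_isUnit (isUnit_of_dvd_unit hd hunit)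
  have hLu : LocInt (C ϖ : A[X]) u := hc₀.mem_gaussClosure_iff.mp hu
  have hLd : LocDvd (C ϖ : A[X]) (u - 1) := hc₀.piDvdSet_gaussClosure_iff.mp hu1
  have hLu' : LocInt (C ϖ : A[X]) u⁻¹ := locInt_inv_of_locDvd_sub_one hprime hLd
  have h0 : HasGoodBasisAt A[X] (FractionRing A[X]) E₀ (Ideal.span {C ϖ}) :=
    hc₀.hasGoodBasisAt_of_goodBasis hgb
  have h1 : HasGoodBasisAt A[X] (FractionRing A[X]) E (Ideal.span {C ϖ}) :=
    habs A[X] (FractionRing A[X]) E₀ E (C ϖ) hprime r hr hrh u w hw hdeg
      (kummer_not_pow hr hw hadj hdeg) hLu hLu' h0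
  exact hc.goodBasis_of_hasGoodBasisAt h1

end Fermat.Agent.H54.KLDict
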