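import Fermat.Agent.H54.KL.Dict
import Fermat.Agent.H3.KLKumBasis

/-!
# P-ES / KL-K-1 : `KummerGoodBasisStatement` (helper54, with helper3)

`Fermat.Agent.H54.kummerGoodBasis : Fermat.Agent.H22.KL.KummerGoodBasisStatement`:
helper3's abstract theorem `Fermat.Agent.H3.KLKum.kummer_hasGoodBasisAt` transported through the
dictionary `Fermat.Agent.H54.KLDict` (polynomial chart `R = A[X]`, `K = Frac A[X]`).
-/

set_option autoImplicit false

namespace Fermat.Agent.H54

/-- helper3's abstract Kummer good-basis theorem, in the packaged form used by the adapter. -/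
theorem kummerAbstract : KLDict.KummerAbstractStatement := by
  intro R _ _ _ K _ _ _ E₀ _ _ _ _ _ E _ _ _ _ _ _ _ _ h hh r hr hrh u w hw hdeg hirr hu hu' hgb
  exact Fermat.Agent.H3.KLKum.kummer_hasGoodBasisAt hh hr hrh hw hdeg hirr hu hu' hgb

/-- **KL-K-1**: a good basis of `E₀` gives a good basis of the Kummer extension `E = E₀(w)`,
`w ^ r = u`, `u ≡ 1 mod ϖ`. -/
theorem kummerGoodBasis : Fermat.Agent.H22.KL.KummerGoodBasisStatement :=
  KLDict.kummerGoodBasis_of_abstract kummerAbstract

end Fermat.Agent.H54
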